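import Fermat.Agent.Ribet.H823.EmbedW
import Fermat.Agent.S29.Gate
import Fermat.Agent.S18.Mod.H216.NodeMod
import Fermat.Agent.S18.H438.NodeAlg

/-!
# Row RIBET, piece BLR-W, UNCONDITIONAL (helper823)

`embedW : Spec.EmbedWStatement` and `embed : Spec.EmbedStatement`: Boston–Lenstra–Ribet for an
irreducible `W[p]` (resp. the Frey curve), with the S29 pieces discharged by the landed S29 chain
(`S29/Gate.lean`: `rawES_of_corePrime`, `M4a_statement`, `m4bStatement`) and the two S18 nodes.
-/

set_option autoImplicit false

namespace Fermat.Agent.Ribet.H823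

open Fermat.Agent.Ribet.Spec

/-- The raw Eichler–Shimura statement, unconditional (S29 chain + S18 nodes). -/
theorem h823_rawES : Fermat.Agent.S29.RawESStatement :=
  Fermat.Agent.S29.rawES_of_corePrime
    (Fermat.Agent.S29.corePrimeFamily_of_nodes
      (fun M _ _ _ hℓM A hA => Fermat.Agent.S18.Mod.H216.node_mod M hℓM A hA)
      (fun M => Fermat.Agent.S18.H438.node_alg M))

/-- **BLR-W, unconditional.** -/
theorem embedW : EmbedWStatement :=
  embedW_of h823_rawES Fermat.Agent.S29.M4a_statement Fermat.Agent.S29.m4bStatement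

/-- **BLR (Frey form), unconditional.** -/
theorem embed : EmbedStatement :=
  embedStatement_of_S29 h823_rawES Fermat.Agent.S29.M4a_statement Fermat.Agent.S29.m4bStatement

end Fermat.Agent.Ribet.H823
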