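import Fermat.Agent.Lib.Ribet.H223.BLR
import Fermat.Agent.S29.Orb

/-!
# Row RIBET, piece R1-GLUE, part 2 (helper823): the abstract embedding lemma

`h823_embed_abstract`: let `ρ` be an irreducible odd two-dimensional `𝔽_p`-representation of
`Gal(ℚ̄/ℚ)` of finite level (`p` odd), and `𝓔` a nonzero Galois-stable subgroup, killed by `p`, of a
smooth Galois module `J`, on which every Frobenius `τ` at a prime `ℓ ∉ S` satisfies
`τ² - tr ρ(τ) τ + det ρ(τ) = 0`.  Then there is an injective Galois-equivariant additive map from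
the space of `ρ` into `𝓔`.

Proof: `Orb` (helper449) gives a nonzero finite stable `𝔽_p`-subspace `V ⊆ 𝓔` of finite level;
Boston–Lenstra–Ribet (`H223.blr_frobenius`, helper223) embeds `ρ` in `V`.
-/

set_option autoImplicit false
set_option linter.style.haveILetI false

namespace Fermat.Agent.Ribet.H823

open Fermat.Agent.Lib.Cheb.Spec

/-- The Galois action on a stable subgroup killed by `p`, as `𝔽_p`-linear endomorphisms. -/
noncomputable def h823_galEnd {p : ℕ} {J : Type} [AddCommGroup J] [DistribMulAction GQ J]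
    (𝓔 : AddSubgroup J) (h𝓔G : ∀ (σ : GQ), ∀ z ∈ 𝓔, σ • z ∈ 𝓔)
    [Module (ZMod p) 𝓔] : GQ →* Module.End (ZMod p) 𝓔 where
  toFun σ := AddMonoidHom.toZModLinearMap p
    { toFun := fun z => ⟨σ • (z : J), h𝓔G σ z z.2⟩
      map_zero' := Subtype.ext (smul_zero σ)
      map_add' := fun x y => Subtype.ext (smul_add σ (x : J) (y : J)) }
  map_one' := by
    ext z
    exact one_smul GQ (z : J)
  map_mul' σ τ := by
    ext z
    exact mul_smul σ τ (z : J)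

theorem h823_galEnd_coe {p : ℕ} {J : Type} [AddCommGroup J] [DistribMulAction GQ J]
    (𝓔 : AddSubgroup J) (h𝓔G : ∀ (σ : GQ), ∀ z ∈ 𝓔, σ • z ∈ 𝓔)
    [Module (ZMod p) 𝓔] (σ : GQ) (z : 𝓔) :
    ((h823_galEnd (p := p) 𝓔 h𝓔G σ z : 𝓔) : J) = σ • (z : J) := rfl

/-- **Abstract embedding lemma** (BLR + Orb). -/
theorem h823_embed_abstract {p : ℕ} [Fact p.Prime] (hp2 : (2 : ZMod p) ≠ 0)
    {W₀ : Type} [AddCommGroup W₀] [Module (ZMod p) W₀]
    (h2 : Module.finrank (ZMod p) W₀ = 2)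
    (ρ : GQ →* Module.End (ZMod p) W₀) (hρfin : GaloisFactorsThroughFiniteLevel ρ)
    (hirr : ∀ W : Submodule (ZMod p) W₀, (∀ g, W ≤ W.comap (ρ g)) → W = ⊥ ∨ W = ⊤)
    (c : GQ) (hc : ρ c * ρ c = 1) (hc1 : ρ c ≠ 1) (hc2 : ρ c ≠ -1)
    {J : Type} [AddCommGroup J] [DistribMulAction GQ J]
    (𝓔 : AddSubgroup J) (h𝓔p : ∀ z ∈ 𝓔, p • z = 0)
    (h𝓔G : ∀ (σ : GQ), ∀ z ∈ 𝓔, σ • z ∈ 𝓔)
    (hsm : ∀ z ∈ 𝓔, ∃ L : IntermediateField ℚ Qb, FiniteDimensional ℚ L ∧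
      ∀ σ : GQ, (∀ y ∈ L, σ y = y) → σ • z = z)
    (hne : ∃ z ∈ 𝓔, z ≠ 0) (S : Finset ℕ)
    (hfrob : ∀ (ℓ : ℕ) (A : ValuationSubring Qb) (τ : GQ), ℓ.Prime → ℓ ∉ S →
      A.LiesOverPrime ℓ → A.IsFrobeniusAt τ ℓ →
      ∃ t d : ℤ, LinearMap.trace (ZMod p) W₀ (ρ τ) = (t : ZMod p) ∧
        LinearMap.det (ρ τ) = (d : ZMod p) ∧
        ∀ z ∈ 𝓔, τ • τ • z - t • (τ • z) + d • z = 0) :
    ∃ ι : W₀ →+ J, Function.Injective ι ∧ (∀ (σ : GQ) (w : W₀), ι (ρ σ w) = σ • ι w) ∧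
      ∀ w, ι w ∈ 𝓔 := by
  classical
  haveI instM : Module (ZMod p) ↥𝓔 := AddCommGroup.zmodModule (n := p) (fun z =>
    Subtype.ext (by rw [AddSubgroup.coe_nsmul, h𝓔p z z.2]; rfl))
  let ρM : GQ →* Module.End (ZMod p) ↥𝓔 := h823_galEnd (p := p) 𝓔 h𝓔G
  have hρM : ∀ (σ : GQ) (z : 𝓔), ((ρM σ z : 𝓔) : J) = σ • (z : J) := fun _ _ => rfl
  have hsmM : Fermat.Agent.S29.IsSmoothRep ρM := by
    intro z
    obtain ⟨L, hL, hfix⟩ := hsm z z.2
    exact ⟨L, hL, fun σ hσ => Subtype.ext (hfix σ hσ)⟩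
  haveI : Nontrivial 𝓔 := by
    obtain ⟨z, hz, hz0⟩ := hne
    exact ⟨⟨⟨z, hz⟩, 0, fun h => hz0 (congrArg Subtype.val h)⟩⟩
  obtain ⟨V, hV0, -, hVst, L, hL, hLfix⟩ :=
    Fermat.Agent.S29.exists_finite_stable_submodule ρM hsmM
  let π : GQ →* Module.End (ZMod p) ↥V :=
    { toFun := fun σ => (ρM σ).restrict (hVst σ)
      map_one' := by
        ext x
        simp
      map_mul' := fun σ τ => by
        ext x
        simp [LinearMap.restrict_apply] }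
  have hπ : ∀ (σ : GQ) (x : V), ((π σ x : V) : 𝓔) = ρM σ (x : 𝓔) := fun _ _ => rfl
  haveI : Nontrivial V := (Submodule.nontrivial_iff_ne_bot).mpr hV0
  have hπfin : GaloisFactorsThroughFiniteLevel π := by
    refine ⟨L, hL, fun σ hσ => ?_⟩
    ext x
    rw [hπ, hLfix σ hσ x x.2]
    rfl
  have hfrob' : ∀ (ℓ : ℕ) (A : ValuationSubring Qb) (τ : GQ), ℓ.Prime → ℓ ∉ S →
      A.LiesOverPrime ℓ → A.IsFrobeniusAt τ ℓ →
      π τ * π τ - LinearMap.trace (ZMod p) W₀ (ρ τ) • π τ + LinearMap.det (ρ τ) • 1 = 0 := by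
    intro ℓ A τ hℓ hℓS hA hτ
    obtain ⟨t, d, ht, hd, hrel⟩ := hfrob ℓ A τ hℓ hℓS hA hτ
    rw [ht, hd]
    ext x
    have h1 := hrel (x : 𝓔) (x : 𝓔).2
    simp only [LinearMap.add_apply, LinearMap.sub_apply, Module.End.mul_apply,
      LinearMap.smul_apply, Module.End.one_apply, LinearMap.zero_apply,
      Int.cast_smul_eq_zsmul]
    simp only [Submodule.coe_add, Submodule.coe_sub, Submodule.coe_smul_of_tower,
      AddSubgroup.coe_add, AddSubgroup.coe_sub, AddSubgroup.coe_zsmul, hπ, hρM,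
      Submodule.coe_zero, AddSubgroup.coe_zero]
    exact h1
  obtain ⟨φ, hφinj, hφeq⟩ := Fermat.Agent.Lib.Ribet.H223.blr_frobenius hp2 h2 ρ π hρfin hπfin
    hirr c hc hc1 hc2 S hfrob'
  refine ⟨(𝓔.subtype).comp ((V.subtype.toAddMonoidHom).comp φ.toAddMonoidHom), ?_, ?_, ?_⟩
  · intro x y hxy
    apply hφinj
    apply Subtype.ext
    apply Subtype.ext
    exact hxy
  · intro σ w
    show (((φ (ρ σ w) : V) : 𝓔) : J) = σ • (((φ w : V) : 𝓔) : J)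
    rw [hφeq]
    rfl
  · intro w
    exact ((φ w : V) : 𝓔).2

end Fermat.Agent.Ribet.H823
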