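import Fermat.Agent.Ribet.H823.Occurs
import Fermat.Agent.Ribet.H823.EmbedAbs
import Fermat.Agent.Ribet.H463.AuxPrime
import Fermat.Agent.Ribet.H643.TorsionRank
import Fermat.Agent.S59.H127.TateE
import Fermat.Agent.S29.H42.MLayer
import Fermat.Agent.S54.FrobExists

/-!
# Row RIBET, piece R1-GLUE (helper823): `Spec.EmbedStatement` from its inputs

`embedStatement_of : RawESStatement → M4aStatement → M4bStatement → TraceFormulaStatement →
  DetFrobStatement → Spec.EmbedStatement`.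

Inputs, as hypotheses: the S29 pieces `RawES` (Eichler–Shimura relation on `J₀(N)[p]`), `M4a`,
`M4b`; the trace formula (TF) and `det ρ(Frob_q) = q` (DETF) for the Frey curve.
Landed inputs: Boston–Lenstra–Ribet (`Lib/Ribet/H223`), `Orb` (S29/H449), GEQ + SMOOTH (S29/H42),
the auxiliary prime (`Ribet/H463`), `dim E[p] = 2` (`Ribet/H643`), finite level of `E[p]`
(`S59/H127`), existence of Frobenius elements (`S54`).

The involution required by BLR is a Frobenius at the auxiliary prime `q'` (`q' ≡ -1`,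
`a_{q'} ≡ 0 mod p`): its characteristic polynomial on `E[p]` is `X² - 1` and its trace is `0 ≠ ±2`.
-/

set_option autoImplicit false
set_option linter.style.haveILetI false

open WeierstrassCurve WeierstrassCurve.Affine WeierstrassCurve.Affine.Point
open CuspForm ModularFormClass ModularCurve

namespace Fermat.Agent.Ribet.H823

open Fermat.Agent.Ribet.Spec

/-- The mod-`p` representation of the Frey curve. -/
noncomputable abbrev h823_rho (P : FreyPackage) : GQ →* Module.End (ZMod P.p) (FreyTorsion P) :=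
  galoisRepModuleEnd (S := ℚ) (K := AlgebraicClosure ℚ) P.freyCurve P.p

/-- The Frey curve is elliptic over `ℚ`. -/
theorem h823_frey_isElliptic (P : FreyPackage) : P.freyCurve.IsElliptic :=
  ⟨isUnit_iff_ne_zero.mpr (Fermat.Agent.S13.H891.freyCurve_Δ_ne_zero P)⟩

/-- `E[p]` has finite level. -/
theorem h823_rho_finiteLevel (P : FreyPackage) :
    GaloisFactorsThroughFiniteLevel (h823_rho P) := by
  haveI := H643.h643_frey_isElliptic P
  obtain ⟨L, hL, hfix⟩ := Fermat.Agent.S59.H127.exists_finite_level P.freyCurve P.p P.pp.one_le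
  refine ⟨L, hL, fun σ hσ => ?_⟩
  ext x
  have hx : P.p • (x : (P.freyCurve⁄(AlgebraicClosure ℚ)).Point) = 0 := by
    have := x.2
    rw [Submodule.mem_torsionBy_iff] at this
    rw [← natCast_zsmul]
    exact this
  exact hfix σ hσ _ hx

/-- Irreducibility in the form used by BLR. -/
theorem h823_rho_irreducible (P : FreyPackage)
    (hirr : GaloisRepIsIrreducible (K := AlgebraicClosure ℚ) ℚ P.freyCurve P.p) :
    ∀ U : Submodule (ZMod P.p) (FreyTorsion P), (∀ g, U ≤ U.comap (h823_rho P g)) →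
      U = ⊥ ∨ U = ⊤ := by
  intro U hU
  exact hirr.2 U (fun σ x hx => hU σ hx)

/-- `2 ≠ 0` in `𝔽_p`. -/
theorem h823_two_ne_zero (P : FreyPackage) : (2 : ZMod P.p) ≠ 0 := by
  haveI : Fact P.p.Prime := ⟨P.pp⟩
  intro h
  have h2 : ((2 : ℕ) : ZMod P.p) = 0 := by exact_mod_cast h
  rw [ZMod.natCast_eq_zero_iff] at h2
  have := Nat.le_of_dvd (by norm_num) h2
  have := P.hp5
  omega

/-- **The involution.**  A Frobenius at the auxiliary prime acts on `E[p]` as an involution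
different from `± 1`. -/
theorem h823_exists_involution (hTF : TraceFormulaStatement) (hDET : DetFrobStatement)
    (P : FreyPackage) (W : WeierstrassCurve ℤ) (hW : W.IsIntegralModelOf P.freyCurve)
    (hirr : GaloisRepIsIrreducible (K := AlgebraicClosure ℚ) ℚ P.freyCurve P.p) :
    ∃ c : GQ, h823_rho P c * h823_rho P c = 1 ∧ h823_rho P c ≠ 1 ∧ h823_rho P c ≠ -1 := by
  haveI : Fact P.p.Prime := ⟨P.pp⟩
  haveI := h823_frey_isElliptic P
  have h2 : Module.finrank (ZMod P.p) (FreyTorsion P) = 2 := H643.torsionRank P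
  haveI : Module.Finite (ZMod P.p) (FreyTorsion P) := Module.finite_of_finrank_eq_succ h2
  have hk2 := h823_two_ne_zero P
  obtain ⟨q', hq', -, hq'p, -, hgood, hdvd, ha⟩ := H463.auxPrime P 1 W one_pos hW hirr
  obtain ⟨A, τ, hA, hτ⟩ := Fermat.Agent.S54.exists_frobenius q' hq'
  have htr : LinearMap.trace (ZMod P.p) (FreyTorsion P) (h823_rho P τ) = 0 := by
    have h := hTF P.freyCurve W hW P.p q' P.pp hq' hq'p hgood A hA τ hτ
    rw [galoisTrace_def] at h
    rw [h]
    exact (ZMod.intCast_zmod_eq_zero_iff_dvd _ _).mpr ha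
  have hdet : LinearMap.det (h823_rho P τ) = -1 := by
    have h := hDET P q' hq' hq'p A hA τ hτ
    rw [h]
    have h1 : ((q' + 1 : ℕ) : ZMod P.p) = 0 := (ZMod.natCast_eq_zero_iff _ _).mpr hdvd
    push_cast at h1
    exact eq_neg_of_add_eq_zero_left h1
  have hCH := Fermat.Agent.Lib.Ribet.H223.cayley_hamilton_two h2 (h823_rho P τ)
  rw [htr, hdet, zero_smul, sub_zero, neg_smul, one_smul, add_neg_eq_zero] at hCH
  refine ⟨τ, hCH, ?_, ?_⟩
  · intro h1
    have h3 := congrArg (LinearMap.trace (ZMod P.p) (FreyTorsion P)) h1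
    rw [htr, LinearMap.trace_one, h2] at h3
    exact hk2 (by exact_mod_cast h3.symm)
  · intro h1
    have h3 := congrArg (LinearMap.trace (ZMod P.p) (FreyTorsion P)) h1
    rw [htr, map_neg, LinearMap.trace_one, h2] at h3
    have h4 : ((2 : ℕ) : ZMod P.p) = 0 := by
      rw [eq_comm, neg_eq_zero] at h3
      exact h3
    exact hk2 (by exact_mod_cast h4)

/-- The subgroup of `J₀(N)[p]` on which `T_ℓ` acts through `a ℓ` for all primes `ℓ ∉ S`. -/
def h823_eigenSub (N p : ℕ) [NeZero N] (S : Finset ℕ) (a : ℕ → ℤ) : AddSubgroup (JZero N) where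
  carrier := {z | p • z = 0 ∧ ∀ ℓ : Nat.Primes, (ℓ : ℕ) ∉ S → heckeOperatorBar N ℓ z = a ℓ • z}
  zero_mem' := ⟨smul_zero _, fun ℓ _ => by rw [_root_.map_zero, smul_zero]⟩
  add_mem' := by
    rintro x y ⟨h1, h2⟩ ⟨h1', h2'⟩
    exact ⟨by rw [nsmul_add, h1, h1', add_zero],
      fun ℓ hℓ => by rw [_root_.map_add, h2 ℓ hℓ, h2' ℓ hℓ, zsmul_add]⟩
  neg_mem' := by
    rintro x ⟨h1, h2⟩
    exact ⟨by rw [neg_nsmul, h1, _root_.neg_zero],
      fun ℓ hℓ => by rw [_root_.map_neg, h2 ℓ hℓ, zsmul_neg]⟩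

theorem h823_mem_eigenSub {N p : ℕ} [NeZero N] {S : Finset ℕ} {a : ℕ → ℤ} {z : JZero N} :
    z ∈ h823_eigenSub N p S a ↔
      p • z = 0 ∧ ∀ ℓ : Nat.Primes, (ℓ : ℕ) ∉ S → heckeOperatorBar N ℓ z = a ℓ • z :=
  Iff.rfl

/-- The eigen-subgroup is Galois stable (GEQ). -/
theorem h823_eigenSub_galois (N p : ℕ) [NeZero N] (S : Finset ℕ) (a : ℕ → ℤ) (σ : GQ)
    (z : JZero N) (hz : z ∈ h823_eigenSub N p S a) : σ • z ∈ h823_eigenSub N p S a := by
  obtain ⟨h1, h2⟩ := hz
  refine ⟨?_, fun ℓ hℓ => ?_⟩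
  · have := map_nsmul (DistribSMul.toAddMonoidHom (JZero N) σ) p z
    rw [h1, _root_.map_zero] at this
    exact this.symm
  · rw [Fermat.Agent.S29.H42.galois_smul_heckeOperatorBar N ℓ σ z, h2 ℓ hℓ]
    exact map_zsmul (DistribSMul.toAddMonoidHom (JZero N) σ) (a ℓ) z

/-- **BLR for the Frey curve**: an eigensystem `a_ℓ(W)` occurring in `J₀(N)[p]` away from a finite
set `S ⊇ {ℓ ∣ N p Δ(W)}` gives an equivariant embedding `E[p] ↪ J₀(N)`. -/
theorem freyEmbedsIn_of_occursIn (hES : Fermat.Agent.S29.RawESStatement)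
    (hTF : TraceFormulaStatement) (hDET : DetFrobStatement)
    (P : FreyPackage) (N : ℕ) [NeZero N]
    (hirr : GaloisRepIsIrreducible (K := AlgebraicClosure ℚ) ℚ P.freyCurve P.p)
    (W : WeierstrassCurve ℤ) (hW : W.IsIntegralModelOf P.freyCurve) (S : Finset ℕ)
    (hS : (N * P.p * W.Δ.natAbs).primeFactors ⊆ S)
    (hocc : OccursIn N P.p S (fun ℓ => W.apOfModel ℓ)) :
    FreyEmbedsIn P N S (fun ℓ => W.apOfModel ℓ) := by
  haveI : Fact P.p.Prime := ⟨P.pp⟩
  haveI := h823_frey_isElliptic P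
  have hWΔ : W.Δ ≠ 0 := (H764.disc_ne_zero_iff_of_isIntegralModelOf hW).mpr
    (Fermat.Agent.S13.H891.freyCurve_Δ_ne_zero P)
  have hne : N * P.p * W.Δ.natAbs ≠ 0 :=
    mul_ne_zero (mul_ne_zero (NeZero.ne N) P.hp0) (Int.natAbs_ne_zero.mpr hWΔ)
  obtain ⟨c, hc, hc1, hc2⟩ := h823_exists_involution hTF hDET P W hW hirr
  obtain ⟨x, hx0, hxp, hxT⟩ := hocc
  obtain ⟨ι, hinj, heq, hmem⟩ := h823_embed_abstract (h823_two_ne_zero P) (H643.torsionRank P)
    (h823_rho P) (h823_rho_finiteLevel P) (h823_rho_irreducible P hirr) c hc hc1 hc2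
    (h823_eigenSub N P.p S (fun ℓ => W.apOfModel ℓ))
    (fun z hz => hz.1)
    (h823_eigenSub_galois N P.p S _)
    (fun z hz => Fermat.Agent.S29.H42.jZero_exists_finite_level_fix_torsion N P.hp0 z
      (by rw [natCast_zsmul]; exact hz.1))
    ⟨x, ⟨hxp, hxT⟩, hx0⟩ S
    (by
      intro ℓ A τ hℓ hℓS hA hτ
      have hℓS' : ℓ ∉ (N * P.p * W.Δ.natAbs).primeFactors := fun h => hℓS (hS h)
      have hnd : ¬ ℓ ∣ N * P.p * W.Δ.natAbs := fun hd =>
        hℓS' (Nat.mem_primeFactors.mpr ⟨hℓ, hd, hne⟩)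
      have hℓNp : ¬ ℓ ∣ N * P.p := fun hd => hnd (Dvd.dvd.mul_right hd _)
      have hℓp : ℓ ≠ P.p := fun he => hℓNp (he ▸ Dvd.intro_left N rfl)
      have hgood : W.IsGoodPrimeFor ℓ := fun hd =>
        hnd (Dvd.dvd.mul_left (Int.natCast_dvd.mp hd) _)
      refine ⟨W.apOfModel ℓ, (ℓ : ℤ), ?_, ?_, ?_⟩
      · have h := hTF P.freyCurve W hW P.p ℓ P.pp hℓ hℓp hgood A hA τ hτ
        rw [galoisTrace_def] at h
        exact h
      · have h := hDET P ℓ hℓ hℓp A hA τ hτ
        rw [Int.cast_natCast]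
        exact h
      · intro z hz
        have h1 := (hES N P.p P.pp ℓ hℓ hℓNp A hA).2 τ hτ z
          (by rw [natCast_zsmul]; exact hz.1)
        have h2 := (h823_eigenSub_galois N P.p S _ τ z hz).2 ⟨ℓ, hℓ⟩ hℓS
        rw [h2] at h1
        exact h1)
  refine ⟨ι, hinj, fun σ w => heq σ w, fun ℓ hℓ w => (hmem w).2 ℓ hℓ⟩

/-- **R1-GLUE**: `Spec.EmbedStatement` from the S29 pieces `RawES`, `M4a`, `M4b`, the trace
formula and `det ρ(Frob) = q`. -/
theorem embedStatement_of (hES : Fermat.Agent.S29.RawESStatement)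
    (hA : Fermat.Agent.S29.M4aStatement) (hB : Fermat.Agent.S29.M4bStatement)
    (hTF : TraceFormulaStatement) (hDET : DetFrobStatement) : EmbedStatement := by
  intro P N _ hirr f W 𝔪 hw
  exact ⟨_, freyEmbedsIn_of_occursIn hES hTF hDET P N hirr W hw.2.1 _ (Finset.Subset.refl _)
    (occursIn_of_witness hA hB P N f W 𝔪 hw (Fermat.Agent.S13.H891.freyCurve_Δ_ne_zero P))⟩

end Fermat.Agent.Ribet.H823
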