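import Fermat.Agent.Ribet.H823.Embed
import Fermat.Agent.Ribet.Spec3
import Fermat.Agent.Ribet.H403.DetCyc
import Fermat.Agent.Ribet.H52.TraceFormulaFrey
import Fermat.Agent.S55.Bridge.Cyclo
import Fermat.Agent.Ribet.H224.IrrTransport

/-!
# Row RIBET, piece BLR-W (helper823): `Spec.EmbedWStatement` from the S29 pieces

`embedW_of : RawESStatement → M4aStatement → M4bStatement → Spec.EmbedWStatement`.

For an arbitrary integral Weierstrass curve `W` with `Δ ≠ 0`, `p` an odd prime, `W[p]` irreducible: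
a congruence witness `(f, 𝔪)` of level `N` gives a Galois- and Hecke-equivariant embedding
`W[p] ↪ J₀(N)`, with `T_ℓ` acting through `a_ℓ(W)` for all primes `ℓ ∤ N · p · Δ(W)`.

Only the three S29 pieces `RawES`, `M4a`, `M4b` remain as hypotheses: the trace formula and
`det ρ(Frob_ℓ) = ℓ` are unconditional for irreducible `W[p]`
(`H403.det_eq_of_apply_root`, `H52.trace_of_det_uncond_h52`), as are the auxiliary prime
(`H463.exists_aux_prime`), BLR (`H223`), Orb (`S29/H449`), GEQ + SMOOTH (`S29/H42`).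
-/

set_option autoImplicit false
set_option linter.style.haveILetI false

open WeierstrassCurve WeierstrassCurve.Affine WeierstrassCurve.Affine.Point
open CuspForm ModularFormClass ModularCurve

namespace Fermat.Agent.Ribet.H823

open Fermat.Agent.Ribet.Spec Fermat.Agent.S29

/-- The mod-`p` representation of `W ⊗ ℚ`. -/
noncomputable abbrev h823_rhoW (W : WeierstrassCurve ℤ) (p : ℕ) :
    Fermat.Agent.Ribet.Spec.GQ →* Module.End (ZMod p) (WTorsion W p) :=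
  galoisRepModuleEnd (S := ℚ) (K := AlgebraicClosure ℚ) (W.map (Int.castRingHom ℚ)) p

theorem h823_mapQ_Δ_ne_zero {W : WeierstrassCurve ℤ} (hΔ : W.Δ ≠ 0) :
    (W.map (Int.castRingHom ℚ)).Δ ≠ 0 := by
  rw [WeierstrassCurve.map_Δ]
  exact (_root_.map_ne_zero_iff _ (RingHom.injective_int (Int.castRingHom ℚ))).mpr hΔ

theorem h823_isEllipticW {W : WeierstrassCurve ℤ} (hΔ : W.Δ ≠ 0) :
    (W.map (Int.castRingHom ℚ)).IsElliptic :=
  ⟨isUnit_iff_ne_zero.mpr (h823_mapQ_Δ_ne_zero hΔ)⟩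

theorem h823_isEllipticW_bar {W : WeierstrassCurve ℤ} (hΔ : W.Δ ≠ 0) :
    ((W.map (Int.castRingHom ℚ))⁄(AlgebraicClosure ℚ)).IsElliptic :=
  H403.isElliptic_baseChange _ (h823_mapQ_Δ_ne_zero hΔ)

theorem h823_finrankW {W : WeierstrassCurve ℤ} (hΔ : W.Δ ≠ 0) (p : ℕ) [Fact p.Prime] :
    Module.finrank (ZMod p) (WTorsion W p) = 2 :=
  H403.finrank_tors _ (h823_mapQ_Δ_ne_zero hΔ) p

theorem h823_two_ne_zeroW {p : ℕ} (hp : p.Prime) (hp2 : p ≠ 2) : (2 : ZMod p) ≠ 0 := by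
  haveI : Fact p.Prime := ⟨hp⟩
  intro h
  have h2 : ((2 : ℕ) : ZMod p) = 0 := by exact_mod_cast h
  rw [ZMod.natCast_eq_zero_iff] at h2
  exact hp2 ((Nat.prime_dvd_prime_iff_eq hp Nat.prime_two).mp h2)

/-- An irreducible `W[p]` has a non-scalar Galois element. -/
theorem h823_nonscalar_of_irr (W : WeierstrassCurve ℤ) (p : ℕ) [Fact p.Prime] (hΔ : W.Δ ≠ 0)
    (hirr : W.ModRepIsIrreducible p) :
    ∃ h : Fermat.Agent.Ribet.Spec.GQ, ¬ ∃ s : ZMod p, ∀ x : WTorsion W p, h • x = s • x := by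
  by_contra hcon
  push Not at hcon
  have h2 := h823_finrankW hΔ p
  obtain ⟨hnt, hI⟩ := hirr
  obtain ⟨x, hx⟩ := exists_ne (0 : WTorsion W p)
  have hst : IsGaloisStable ℚ (Submodule.span (ZMod p) {x}) := by
    intro σ y hy
    obtain ⟨s, hs⟩ := hcon σ
    rw [hs y]
    exact Submodule.smul_mem _ _ hy
  rcases hI _ hst with h | h
  · exact hx ((Submodule.span_singleton_eq_bot).mp h)
  · have h1 : Module.finrank (ZMod p) (Submodule.span (ZMod p) {x}) = 1 :=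
      finrank_span_singleton hx
    rw [h, finrank_top, h2] at h1
    omega

/-- (DETF-W) `det ρ(Frob_q) = q` on an irreducible `W[p]`, `q ≠ p`. -/
theorem h823_detFrobW (W : WeierstrassCurve ℤ) (p : ℕ) (hΔ : W.Δ ≠ 0) (hp : p.Prime)
    (hirr : W.ModRepIsIrreducible p) (q : ℕ) (hq : q.Prime) (hqp : q ≠ p)
    (A : ValuationSubring (AlgebraicClosure ℚ)) (hA : A.LiesOverPrime q)
    (φ : Fermat.Agent.Ribet.Spec.GQ) (hφ : A.IsFrobeniusAt φ q) :
    LinearMap.det (h823_rhoW W p φ) = (q : ZMod p) := by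
  haveI : Fact p.Prime := ⟨hp⟩
  have hNv : A.valuation ((p : ℕ) : AlgebraicClosure ℚ) = 1 :=
    Fermat.Agent.S55.Bridge.val_prime_eq_one (A := A) hA hq hp hqp
  exact H403.det_eq_of_apply_root W p hΔ (h823_nonscalar_of_irr W p hΔ hirr) φ q
    (fun ζ hζ => Fermat.Agent.S55.H414.IsFrobeniusAt_apply_root hφ hp.ne_zero hNv hζ)

/-- (TF-W) `tr ρ(Frob_ℓ) = a_ℓ(W)` on an irreducible `W[p]`, `ℓ ≠ p` a good prime. -/
theorem h823_traceW (W : WeierstrassCurve ℤ) (p : ℕ) (hΔ : W.Δ ≠ 0) (hp : p.Prime)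
    (hirr : W.ModRepIsIrreducible p) (ℓ : ℕ) (hℓ : ℓ.Prime) (hℓp : ℓ ≠ p)
    (hgood : W.IsGoodPrimeFor ℓ)
    (A : ValuationSubring (AlgebraicClosure ℚ)) (hA : A.LiesOverPrime ℓ)
    (τ : Fermat.Agent.Ribet.Spec.GQ) (hτ : A.IsFrobeniusAt τ ℓ) :
    LinearMap.trace (ZMod p) (WTorsion W p) (h823_rhoW W p τ)
      = ((W.apOfModel ℓ : ℤ) : ZMod p) := by
  haveI := h823_isEllipticW hΔ
  have hW : W.IsIntegralModelOf (W.map (Int.castRingHom ℚ)) := ⟨1, one_smul _ _⟩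
  have h := H52.trace_of_det_uncond_h52 (W.map (Int.castRingHom ℚ)) W hW p ℓ hp hℓ hℓp hgood
    A hA τ hτ (h823_detFrobW W p hΔ hp hirr ℓ hℓ hℓp A hA τ hτ)
  rw [galoisTrace_def] at h
  exact h

/-- The trace formula in `W`-form, unconditional. -/
theorem traceFormulaW : TraceFormulaWStatement := by
  intro W p hΔ hp _ hirr ℓ hℓ hℓp hgood A hA τ hτ
  rw [galoisTrace_def]
  exact h823_traceW W p hΔ hp hirr ℓ hℓ hℓp hgood A hA τ hτ

/-- `W[p]` has finite level. -/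
theorem h823_rhoW_finiteLevel {W : WeierstrassCurve ℤ} (hΔ : W.Δ ≠ 0) {p : ℕ} (hp : p.Prime) :
    GaloisFactorsThroughFiniteLevel (h823_rhoW W p) := by
  haveI := h823_isEllipticW_bar hΔ
  obtain ⟨L, hL, hfix⟩ :=
    Fermat.Agent.S59.H127.exists_finite_level (W.map (Int.castRingHom ℚ)) p hp.one_le
  refine ⟨L, hL, fun σ hσ => ?_⟩
  ext x
  have hx : p • (x : ((W.map (Int.castRingHom ℚ))⁄(AlgebraicClosure ℚ)).Point) = 0 := by
    have := x.2
    rw [Submodule.mem_torsionBy_iff] at this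
    rw [← natCast_zsmul]
    exact this
  exact hfix σ hσ _ hx

/-- **The involution, `W`-form.** -/
theorem h823_exists_involutionW (W : WeierstrassCurve ℤ) (p : ℕ) (hΔ : W.Δ ≠ 0) (hp : p.Prime)
    (hp2 : p ≠ 2) (hirr : W.ModRepIsIrreducible p) :
    ∃ c : Fermat.Agent.Ribet.Spec.GQ,
      h823_rhoW W p c * h823_rhoW W p c = 1 ∧ h823_rhoW W p c ≠ 1 ∧ h823_rhoW W p c ≠ -1 := by
  haveI : Fact p.Prime := ⟨hp⟩
  have h2 : Module.finrank (ZMod p) (WTorsion W p) = 2 := h823_finrankW hΔ p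
  haveI : Module.Finite (ZMod p) (WTorsion W p) := Module.finite_of_finrank_eq_succ h2
  have hk2 := h823_two_ne_zeroW hp hp2
  haveI := hirr.1
  obtain ⟨x, hx⟩ := exists_ne (0 : WTorsion W p)
  have hx0 : (x : ((W.map (Int.castRingHom ℚ))⁄(AlgebraicClosure ℚ)).Point) ≠ 0 :=
    fun h => hx (Subtype.ext h)
  have hxp : p • (x : ((W.map (Int.castRingHom ℚ))⁄(AlgebraicClosure ℚ)).Point) = 0 := by
    have := x.2
    rw [Submodule.mem_torsionBy_iff] at this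
    rw [← natCast_zsmul]
    exact this
  obtain ⟨q', hq', -, -, hq'p, hgood, hdvd, ha⟩ :=
    H463.exists_aux_prime W hΔ hp hp2 (x : ((W.map (Int.castRingHom ℚ))⁄(AlgebraicClosure ℚ)).Point)
      hx0 hxp ∅
  obtain ⟨A, τ, hA, hτ⟩ := Fermat.Agent.S54.exists_frobenius q' hq'
  have htr : LinearMap.trace (ZMod p) (WTorsion W p) (h823_rhoW W p τ) = 0 := by
    rw [h823_traceW W p hΔ hp hirr q' hq' hq'p hgood A hA τ hτ]
    exact (ZMod.intCast_zmod_eq_zero_iff_dvd _ _).mpr ha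
  have hdet : LinearMap.det (h823_rhoW W p τ) = -1 := by
    rw [h823_detFrobW W p hΔ hp hirr q' hq' hq'p A hA τ hτ]
    have h1 : ((q' + 1 : ℕ) : ZMod p) = 0 := (ZMod.natCast_eq_zero_iff _ _).mpr hdvd
    push_cast at h1
    exact eq_neg_of_add_eq_zero_left h1
  have hCH := Fermat.Agent.Lib.Ribet.H223.cayley_hamilton_two h2 (h823_rhoW W p τ)
  rw [htr, hdet, zero_smul, sub_zero, neg_smul, one_smul, add_neg_eq_zero] at hCH
  refine ⟨τ, hCH, ?_, ?_⟩
  · intro h1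
    have h3 := congrArg (LinearMap.trace (ZMod p) (WTorsion W p)) h1
    rw [htr, LinearMap.trace_one, h2] at h3
    exact hk2 (by exact_mod_cast h3.symm)
  · intro h1
    have h3 := congrArg (LinearMap.trace (ZMod p) (WTorsion W p)) h1
    rw [htr, map_neg, LinearMap.trace_one, h2] at h3
    have h4 : ((2 : ℕ) : ZMod p) = 0 := by
      rw [eq_comm, neg_eq_zero] at h3
      exact h3
    exact hk2 (by exact_mod_cast h4)

/-- **Occurrence, `W`-form.**  The eigensystem `ℓ ↦ a_ℓ(W)` of a congruence witness of level `N`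
occurs in `J₀(N)[p]`, away from the primes dividing `N · p · Δ(W)`. -/
theorem occursIn_of_witnessW (hA : M4aStatement) (hB : M4bStatement)
    (W : WeierstrassCurve ℤ) (p N : ℕ) [NeZero N] (hWΔ : W.Δ ≠ 0) (hp : p.Prime)
    (f : CuspForm (CongruenceSubgroup.Gamma0 N) 2)
    (𝔪 : Ideal (integralClosure ℤ ℂ)) (h : IsWitnessW W p N f 𝔪) :
    OccursIn N p (N * p * W.Δ.natAbs).primeFactors (fun ℓ => W.apOfModel ℓ) := by
  classical
  obtain ⟨hf, hmax, hp𝔪, hcong⟩ := h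
  have hpF : Fact p.Prime := ⟨hp⟩
  have := hmax
  letI : Field (integralClosure ℤ ℂ ⧸ 𝔪) := Ideal.Quotient.field 𝔪
  have : CharP (integralClosure ℤ ℂ ⧸ 𝔪) p := by
    rw [CharP.charP_iff_prime_eq_zero hp]
    have : ((p : integralClosure ℤ ℂ ⧸ 𝔪)) = Ideal.Quotient.mk 𝔪 (p : integralClosure ℤ ℂ) := by
      simp
    rw [this]
    exact Ideal.Quotient.eq_zero_iff_mem.mpr hp𝔪
  let F : Type := AlgebraicClosure (integralClosure ℤ ℂ ⧸ 𝔪)
  letI : Algebra (ZMod p) F := ZMod.algebra F p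
  let ψ : integralClosure ℤ ℂ →+* F :=
    (algebraMap (integralClosure ℤ ℂ ⧸ 𝔪) F).comp (Ideal.Quotient.mk 𝔪)
  have hψ𝔪 : ∀ x ∈ 𝔪, ψ x = 0 := by
    intro x hx
    show algebraMap (integralClosure ℤ ℂ ⧸ 𝔪) F (Ideal.Quotient.mk 𝔪 x) = 0
    rw [Ideal.Quotient.eq_zero_iff_mem.mpr hx, _root_.map_zero]
  let a : ℕ → integralClosure ℤ ℂ := fun ℓ =>
    if h : ℓ.Prime ∧ ¬ ℓ ∣ N then ⟨ModularFormClass.qCoeff f ℓ, H642.isIntegral_qCoeff hf h.1 h.2⟩
    else 0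
  have ha : ∀ ℓ : ℕ, ℓ.Prime → ¬ ℓ ∣ N →
      ((a ℓ : integralClosure ℤ ℂ) : ℂ) = ModularFormClass.qCoeff f ℓ := by
    intro ℓ hℓ hℓN
    simp only [a, dif_pos (And.intro hℓ hℓN)]
  obtain ⟨n, w, c, hw, hc, ⟨j₀, hj₀⟩, hid⟩ := hA N f hf p F ψ a ha
  obtain ⟨κ, hκadd, hκinj, hκT⟩ := hB N p
  -- the `𝔽_p`-module structure on `J₀(N)[p]`
  letI : Module (ZMod p) (Jp N p) := AddCommGroup.zmodModule (n := p) (fun x => by
    have hx := x.2
    rw [Submodule.mem_torsionBy_iff] at hx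
    apply Subtype.ext
    have h2 : ((p • x : Jp N p) : JZero N) = (p : ℤ) • (x : JZero N) := by
      rw [natCast_zsmul]
      exact Submodule.coe_smul_of_tower p x
    rw [h2, hx]
    rfl)
  have hN0 : N ≠ 0 := NeZero.ne N
  have hne : N * p * W.Δ.natAbs ≠ 0 :=
    mul_ne_zero (mul_ne_zero hN0 hp.ne_zero) (Int.natAbs_ne_zero.mpr hWΔ)
  -- the eigen-identity for `c j₀`
  have heig : ∀ ℓ : ℕ, ℓ.Prime → ℓ ∉ (N * p * W.Δ.natAbs).primeFactors →
      heckeCoh N ℓ (c j₀) = ((W.apOfModel ℓ : ℤ) : ZMod p) • c j₀ := by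
    intro ℓ hℓ hℓS
    have hnd : ¬ ℓ ∣ N * p * W.Δ.natAbs := fun hd =>
      hℓS (Nat.mem_primeFactors.mpr ⟨hℓ, hd, hne⟩)
    have hℓNp : ¬ ℓ ∣ N * p := fun hd => hnd (Dvd.dvd.mul_right hd _)
    have hℓN : ¬ ℓ ∣ N := fun hd => hℓNp (Dvd.dvd.mul_right hd _)
    have hℓp : ℓ ≠ p := fun he => hℓNp (he ▸ Dvd.intro_left N rfl)
    have hgood : W.IsGoodPrimeFor ℓ := fun hd =>
      hnd (Dvd.dvd.mul_left (Int.natCast_dvd.mp hd) _)
    obtain ⟨b, hbC, hb𝔪⟩ := hcong ℓ hℓ hgood hℓN hℓp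
    have hab : a ℓ = b := Subtype.ext ((ha ℓ hℓ hℓN).trans hbC.symm)
    have hψa : ψ (a ℓ) = algebraMap (ZMod p) F ((W.apOfModel ℓ : ℤ) : ZMod p) := by
      have h1 := hψ𝔪 _ hb𝔪
      rw [map_sub, sub_eq_zero, map_intCast] at h1
      rw [hab, h1, map_intCast]
    funext γ
    have h2 := hid ℓ hℓ hℓNp γ
    rw [hψa] at h2
    have h3 := h823_coord_eq w hw (fun j => heckeCoh N ℓ (c j) γ) (fun j => c j γ) _ h2 j₀
    simpa [Pi.smul_apply, smul_eq_mul] using h3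
  -- the class
  have hκsmul : ∀ t : ZMod p, κ (t • c j₀) = t • κ (c j₀) := by
    intro t
    have h1 := (M4c_kappa_sum (fun c : G0 N → ZMod p => IsParHom c) κ (M4c_isParHom_zero N)
      (fun c c' h h' => M4c_isParHom_add h h') hκadd (fun _ : Fin 1 => c j₀) (fun _ => hc j₀)
      (fun _ => t)).2
    simpa using h1
  refine ⟨((κ (c j₀) : Jp N p) : JZero N), ?_, ?_, ?_⟩
  · intro h0
    exact hj₀ (hκinj _ (hc j₀) (Subtype.ext h0))
  · have hx := (κ (c j₀)).2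
    rw [Submodule.mem_torsionBy_iff] at hx
    rw [← natCast_zsmul]
    exact hx
  · intro ℓ hℓS
    have hnd : ¬ (ℓ : ℕ) ∣ N * p * W.Δ.natAbs := fun hd =>
      hℓS (Nat.mem_primeFactors.mpr ⟨ℓ.2, hd, hne⟩)
    have hℓNp : ¬ (ℓ : ℕ) ∣ N * p := fun hd => hnd (Dvd.dvd.mul_right hd _)
    have h1 := hκT ℓ hℓNp (c j₀) (hc j₀)
    rw [heig ℓ ℓ.2 hℓS, hκsmul, Int.cast_smul_eq_zsmul] at h1
    have h2 := congrArg (fun y : Jp N p => (y : JZero N)) h1
    simp only [coe_heckeJp] at h2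
    rw [← h2]
    rfl

/-- **BLR, `W`-form**: an eigensystem `a_ℓ(W)` occurring in `J₀(N)[p]` away from a finite set
`S ⊇ {ℓ ∣ N p Δ(W)}` gives an equivariant embedding `W[p] ↪ J₀(N)`. -/
theorem wEmbedsIn_of_occursIn (hES : RawESStatement)
    (W : WeierstrassCurve ℤ) (p N : ℕ) [NeZero N] (hΔ : W.Δ ≠ 0) (hp : p.Prime) (hp2 : p ≠ 2)
    (hirr : W.ModRepIsIrreducible p) (S : Finset ℕ)
    (hS : (N * p * W.Δ.natAbs).primeFactors ⊆ S)
    (hocc : OccursIn N p S (fun ℓ => W.apOfModel ℓ)) :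
    WEmbedsIn W p N S := by
  haveI : Fact p.Prime := ⟨hp⟩
  have hne : N * p * W.Δ.natAbs ≠ 0 :=
    mul_ne_zero (mul_ne_zero (NeZero.ne N) hp.ne_zero) (Int.natAbs_ne_zero.mpr hΔ)
  obtain ⟨c, hc, hc1, hc2⟩ := h823_exists_involutionW W p hΔ hp hp2 hirr
  obtain ⟨x, hx0, hxp, hxT⟩ := hocc
  obtain ⟨ι, hinj, heq, hmem⟩ := h823_embed_abstract (h823_two_ne_zeroW hp hp2)
    (h823_finrankW hΔ p)
    (h823_rhoW W p) (h823_rhoW_finiteLevel hΔ hp) (fun U hU => hirr.2 U (fun σ x hx => hU σ hx))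
    c hc hc1 hc2
    (h823_eigenSub N p S (fun ℓ => W.apOfModel ℓ))
    (fun z hz => hz.1)
    (h823_eigenSub_galois N p S _)
    (fun z hz => Fermat.Agent.S29.H42.jZero_exists_finite_level_fix_torsion N hp.ne_zero z
      (by rw [natCast_zsmul]; exact hz.1))
    ⟨x, ⟨hxp, hxT⟩, hx0⟩ S
    (by
      intro ℓ A τ hℓ hℓS hA hτ
      have hℓS' : ℓ ∉ (N * p * W.Δ.natAbs).primeFactors := fun h => hℓS (hS h)
      have hnd : ¬ ℓ ∣ N * p * W.Δ.natAbs := fun hd =>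
        hℓS' (Nat.mem_primeFactors.mpr ⟨hℓ, hd, hne⟩)
      have hℓNp : ¬ ℓ ∣ N * p := fun hd => hnd (Dvd.dvd.mul_right hd _)
      have hℓp : ℓ ≠ p := fun he => hℓNp (he ▸ Dvd.intro_left N rfl)
      have hgood : W.IsGoodPrimeFor ℓ := fun hd =>
        hnd (Dvd.dvd.mul_left (Int.natCast_dvd.mp hd) _)
      refine ⟨W.apOfModel ℓ, (ℓ : ℤ), ?_, ?_, ?_⟩
      · exact h823_traceW W p hΔ hp hirr ℓ hℓ hℓp hgood A hA τ hτ
      · rw [Int.cast_natCast]
        exact h823_detFrobW W p hΔ hp hirr ℓ hℓ hℓp A hA τ hτ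
      · intro z hz
        have h1 := (hES N p hp ℓ hℓ hℓNp A hA).2 τ hτ z
          (by rw [natCast_zsmul]; exact hz.1)
        have h2 := (h823_eigenSub_galois N p S _ τ z hz).2 ⟨ℓ, hℓ⟩ hℓS
        rw [h2] at h1
        exact h1)
  refine ⟨ι, hinj, fun σ w => heq σ w, fun ℓ hℓ w => (hmem w).2 ℓ hℓ⟩

/-- **BLR-W**: `Spec.EmbedWStatement` from the S29 pieces `RawES`, `M4a`, `M4b`. -/
theorem embedW_of (hES : RawESStatement) (hA : M4aStatement) (hB : M4bStatement) :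
    EmbedWStatement := by
  intro W p N _ hΔ hp hp2 hirr f 𝔪 hw
  exact ⟨_, wEmbedsIn_of_occursIn hES W p N hΔ hp hp2 hirr _ (Finset.Subset.refl _)
    (occursIn_of_witnessW hA hB W p N hΔ hp f 𝔪 hw)⟩

/-- The Frey form `Spec.EmbedStatement` from the S29 pieces alone (the trace formula and the
determinant formula for the Frey curve are on main). -/
theorem embedStatement_of_S29 (hES : RawESStatement) (hA : M4aStatement) (hB : M4bStatement) :
    EmbedStatement := by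
  intro P N _ hirr f W 𝔪 hw
  have hΔ : W.Δ ≠ 0 := (H764.disc_ne_zero_iff_of_isIntegralModelOf hw.2.1).mpr
    (Fermat.Agent.S13.H891.freyCurve_Δ_ne_zero P)
  have hp2 : P.p ≠ 2 := by have := P.hp5; omega
  have hirrW : W.ModRepIsIrreducible P.p := H224.irrTransport P.freyCurve W P.p hw.2.1 hirr
  obtain ⟨ι, hinj, heq, hT⟩ := wEmbedsIn_of_occursIn hES W P.p N hΔ P.pp hp2 hirrW _
    (Finset.Subset.refl _)
    (occursIn_of_witnessW hA hB W P.p N hΔ P.pp f 𝔪 ⟨hw.1, hw.2.2.1, hw.2.2.2.1, hw.2.2.2.2⟩)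
  obtain ⟨C, hC⟩ := hw.2.1
  -- transport along the change of variables `C • E = W_ℚ`
  have key : ∀ (E' : WeierstrassCurve ℚ) (hE' : C • P.freyCurve = E')
      (ι' : Submodule.torsionBy ℤ (E'⁄(AlgebraicClosure ℚ)).Point P.p →+ JZero N),
      Function.Injective ι' →
      (∀ (σ : Fermat.Agent.Ribet.Spec.GQ)
        (x : Submodule.torsionBy ℤ (E'⁄(AlgebraicClosure ℚ)).Point P.p), ι' (σ • x) = σ • ι' x) →
      (∀ ℓ : Nat.Primes, (ℓ : ℕ) ∉ (N * P.p * W.Δ.natAbs).primeFactors →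
        ∀ x : Submodule.torsionBy ℤ (E'⁄(AlgebraicClosure ℚ)).Point P.p,
          heckeOperatorBar N ℓ (ι' x) = W.apOfModel ℓ • ι' x) →
      FreyEmbedsIn P N (N * P.p * W.Δ.natAbs).primeFactors (fun ℓ => W.apOfModel ℓ) := by
    rintro _ rfl ι' hinj' heq' hT'
    refine ⟨ι'.comp (H224.torsEquiv P.freyCurve C P.p).symm.toAddMonoidHom, ?_, ?_, ?_⟩
    · exact hinj'.comp (H224.torsEquiv P.freyCurve C P.p).symm.injective
    · intro σ x
      show ι' ((H224.torsEquiv P.freyCurve C P.p).symm (σ • x)) = _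
      rw [H224.torsEquiv_symm_smul, heq']
      rfl
    · intro ℓ hℓ x
      exact hT' ℓ hℓ _
  exact ⟨_, key _ hC ι hinj heq hT⟩

end Fermat.Agent.Ribet.H823
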