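import Fermat.Agent.Ribet.Spec
import Fermat.Agent.Ribet.H764.TraceCore
import Fermat.Agent.S29.Parts
import Fermat.Agent.S29.M4c
import Fermat.Agent.S29.H642.EigenChar

/-!
# Row RIBET, piece R1-GLUE, part 1 (helper823): the eigensystem of a congruence witness occurs
in `J₀(N)[p]`

`occursIn_of_witness`: from the S29 pieces `M4a` (the eigensystem of a normalised eigenform occurs
in `Hom_par(Γ₀(N), 𝔽_p) ⊗ F`) and `M4b` (the Kummer map `κ`), a congruence witness `(f, W, 𝔪)` of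
level `N` for the Frey curve gives a nonzero `x ∈ J₀(N)(ℚ̄)[p]` with
`T_ℓ x = a_ℓ(W) • x` for all primes `ℓ ∤ N · p · Δ(W)`.

No tensor product is needed: the eigenvalues `a_ℓ(W)` are `𝔽_p`-rational, so linear independence
of the coefficients `w j` over `𝔽_p` gives the eigen-identity for each character `c j` separately.
-/

set_option autoImplicit false
set_option linter.style.haveILetI false

open WeierstrassCurve WeierstrassCurve.Affine WeierstrassCurve.Affine.Point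
open CuspForm ModularFormClass ModularCurve

namespace Fermat.Agent.Ribet.H823

open Fermat.Agent.Ribet.Spec Fermat.Agent.S29

/-- Coordinates: an `F`-eigen-identity with an `𝔽_p`-rational eigenvalue `t` and `𝔽_p`-linearly
independent coefficients holds coefficientwise. -/
theorem h823_coord_eq {p : ℕ} {F : Type*} [Field F] [Algebra (ZMod p) F]
    {n : ℕ} (w : Fin n → F) (hw : LinearIndependent (ZMod p) w)
    (u v : Fin n → ZMod p) (t : ZMod p)
    (h : ∑ j, w j * algebraMap (ZMod p) F (u j)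
      = algebraMap (ZMod p) F t * ∑ j, w j * algebraMap (ZMod p) F (v j)) :
    ∀ j, u j = t * v j := by
  have h0 : ∑ j, (u j - t * v j) • w j = 0 := by
    have e : ∀ j, (u j - t * v j) • w j
        = w j * algebraMap (ZMod p) F (u j)
          - algebraMap (ZMod p) F t * (w j * algebraMap (ZMod p) F (v j)) := by
      intro j
      rw [Algebra.smul_def, map_sub, map_mul]
      ring
    simp only [e]
    rw [Finset.sum_sub_distrib, ← Finset.mul_sum, h, sub_self]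
  intro j
  have := Fintype.linearIndependent_iff.1 hw (fun j => u j - t * v j) h0 j
  exact sub_eq_zero.mp this

/-- **Occurrence.**  The eigensystem `ℓ ↦ a_ℓ(W)` of a congruence witness of level `N` occurs in
`J₀(N)[p]`, away from the primes dividing `N · p · Δ(W)`. -/
theorem occursIn_of_witness (hA : M4aStatement) (hB : M4bStatement)
    (P : FreyPackage) (N : ℕ) [NeZero N]
    (f : CuspForm (CongruenceSubgroup.Gamma0 N) 2) (W : WeierstrassCurve ℤ)
    (𝔪 : Ideal (integralClosure ℤ ℂ)) (h : P.IsCongruentWitness N f W 𝔪)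
    (hΔ : P.freyCurve.Δ ≠ 0) :
    OccursIn N P.p (N * P.p * W.Δ.natAbs).primeFactors (fun ℓ => W.apOfModel ℓ) := by
  classical
  obtain ⟨hf, hW, hmax, hp𝔪, hcong⟩ := h
  have hWΔ : W.Δ ≠ 0 := (H764.disc_ne_zero_iff_of_isIntegralModelOf hW).mpr hΔ
  have hpF : Fact P.p.Prime := ⟨P.pp⟩
  have := hmax
  letI : Field (integralClosure ℤ ℂ ⧸ 𝔪) := Ideal.Quotient.field 𝔪
  have : CharP (integralClosure ℤ ℂ ⧸ 𝔪) P.p := by
    rw [CharP.charP_iff_prime_eq_zero P.pp]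
    have : ((P.p : integralClosure ℤ ℂ ⧸ 𝔪)) = Ideal.Quotient.mk 𝔪 (P.p : integralClosure ℤ ℂ) := by
      simp
    rw [this]
    exact Ideal.Quotient.eq_zero_iff_mem.mpr hp𝔪
  let F : Type := AlgebraicClosure (integralClosure ℤ ℂ ⧸ 𝔪)
  letI : Algebra (ZMod P.p) F := ZMod.algebra F P.p
  let ψ : integralClosure ℤ ℂ →+* F :=
    (algebraMap (integralClosure ℤ ℂ ⧸ 𝔪) F).comp (Ideal.Quotient.mk 𝔪)
  have hψ𝔪 : ∀ x ∈ 𝔪, ψ x = 0 := by
    intro x hx
    show algebraMap (integralClosure ℤ ℂ ⧸ 𝔪) F (Ideal.Quotient.mk 𝔪 x) = 0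
    rw [Ideal.Quotient.eq_zero_iff_mem.mpr hx, _root_.map_zero]
  let a : ℕ → integralClosure ℤ ℂ := fun ℓ =>
    if h : ℓ.Prime ∧ ¬ ℓ ∣ N then ⟨ModularFormClass.qCoeff f ℓ, H642.isIntegral_qCoeff hf h.1 h.2⟩
    else 0
  have ha : ∀ ℓ : ℕ, ℓ.Prime → ¬ ℓ ∣ N →
      ((a ℓ : integralClosure ℤ ℂ) : ℂ) = ModularFormClass.qCoeff f ℓ := by
    intro ℓ hℓ hℓN
    simp only [a, dif_pos (And.intro hℓ hℓN)]
  obtain ⟨n, w, c, hw, hc, ⟨j₀, hj₀⟩, hid⟩ := hA N f hf P.p F ψ a ha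
  obtain ⟨κ, hκadd, hκinj, hκT⟩ := hB N P.p
  -- the `𝔽_p`-module structure on `J₀(N)[p]`
  letI : Module (ZMod P.p) (Jp N P.p) := AddCommGroup.zmodModule (n := P.p) (fun x => by
    have hx := x.2
    rw [Submodule.mem_torsionBy_iff] at hx
    apply Subtype.ext
    have h2 : ((P.p • x : Jp N P.p) : JZero N) = (P.p : ℤ) • (x : JZero N) := by
      rw [natCast_zsmul]
      exact Submodule.coe_smul_of_tower P.p x
    rw [h2, hx]
    rfl)
  have hN0 : N ≠ 0 := NeZero.ne N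
  have hne : N * P.p * W.Δ.natAbs ≠ 0 :=
    mul_ne_zero (mul_ne_zero hN0 P.hp0) (Int.natAbs_ne_zero.mpr hWΔ)
  -- the eigen-identity for `c j₀`
  have heig : ∀ ℓ : ℕ, ℓ.Prime → ℓ ∉ (N * P.p * W.Δ.natAbs).primeFactors →
      heckeCoh N ℓ (c j₀) = ((W.apOfModel ℓ : ℤ) : ZMod P.p) • c j₀ := by
    intro ℓ hℓ hℓS
    have hnd : ¬ ℓ ∣ N * P.p * W.Δ.natAbs := fun hd =>
      hℓS (Nat.mem_primeFactors.mpr ⟨hℓ, hd, hne⟩)
    have hℓNp : ¬ ℓ ∣ N * P.p := fun hd => hnd (Dvd.dvd.mul_right hd _)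
    have hℓN : ¬ ℓ ∣ N := fun hd => hℓNp (Dvd.dvd.mul_right hd _)
    have hℓp : ℓ ≠ P.p := fun he => hℓNp (he ▸ Dvd.intro_left N rfl)
    have hgood : W.IsGoodPrimeFor ℓ := fun hd =>
      hnd (Dvd.dvd.mul_left (Int.natCast_dvd.mp hd) _)
    obtain ⟨b, hbC, hb𝔪⟩ := hcong ℓ hℓ hgood hℓN hℓp
    have hab : a ℓ = b := Subtype.ext ((ha ℓ hℓ hℓN).trans hbC.symm)
    have hψa : ψ (a ℓ) = algebraMap (ZMod P.p) F ((W.apOfModel ℓ : ℤ) : ZMod P.p) := by
      have h1 := hψ𝔪 _ hb𝔪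
      rw [map_sub, sub_eq_zero, map_intCast] at h1
      rw [hab, h1, map_intCast]
    funext γ
    have h2 := hid ℓ hℓ hℓNp γ
    rw [hψa] at h2
    have h3 := h823_coord_eq w hw (fun j => heckeCoh N ℓ (c j) γ) (fun j => c j γ) _ h2 j₀
    simpa [Pi.smul_apply, smul_eq_mul] using h3
  -- the class
  have hκsmul : ∀ t : ZMod P.p, κ (t • c j₀) = t • κ (c j₀) := by
    intro t
    have h1 := (M4c_kappa_sum (fun c : G0 N → ZMod P.p => IsParHom c) κ (M4c_isParHom_zero N)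
      (fun c c' h h' => M4c_isParHom_add h h') hκadd (fun _ : Fin 1 => c j₀) (fun _ => hc j₀)
      (fun _ => t)).2
    simpa using h1
  refine ⟨((κ (c j₀) : Jp N P.p) : JZero N), ?_, ?_, ?_⟩
  · intro h0
    exact hj₀ (hκinj _ (hc j₀) (Subtype.ext h0))
  · have hx := (κ (c j₀)).2
    rw [Submodule.mem_torsionBy_iff] at hx
    rw [← natCast_zsmul]
    exact hx
  · intro ℓ hℓS
    have hnd : ¬ (ℓ : ℕ) ∣ N * P.p * W.Δ.natAbs := fun hd =>
      hℓS (Nat.mem_primeFactors.mpr ⟨ℓ.2, hd, hne⟩)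
    have hℓNp : ¬ (ℓ : ℕ) ∣ N * P.p := fun hd => hnd (Dvd.dvd.mul_right hd _)
    have h1 := hκT ℓ hℓNp (c j₀) (hc j₀)
    rw [heig ℓ ℓ.2 hℓS, hκsmul, Int.cast_smul_eq_zsmul] at h1
    have h2 := congrArg (fun y : Jp N P.p => (y : JZero N)) h1
    simp only [coe_heckeJp] at h2
    rw [← h2]
    rfl

end Fermat.Agent.Ribet.H823
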